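import Mathlib.NumberTheory.ModularForms.LFunction
import Fermat.Prelude.Def_CuspForm_Newforms
import Fermat.Prelude.Def_CuspForm_HeckeAlgebra

/-!
# NEWFORM, block X: cross-level strong multiplicity one via Hecke `L`-functions

Cross-level strong multiplicity one is *not* accessible by the Petersson-free algebra of the
rest of the library (level raising congruences show that any proof must use an Archimedean
input).  Mathlib has the completed `L`-function of a modular form with its functional equation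
(`Mathlib/NumberTheory/ModularForms/LFunction.lean`), and this is enough:

* `f`, `g` Prelude-newforms of levels `N`, `N'` with `a_ℓ(f) = a_ℓ(g)` for all primes `ℓ` outside
  a finite set `T ⊇ primes (N N')`.  Depleting at `T` gives, for `Re s > 2`,
  `Λ_f(s) ∏_{p ∈ T} P_{f,p}(p^{-s}) = Λ_g(s) ∏_{p ∈ T} P_{g,p}(p^{-s})`, hence for all `s`.
* Functional equations `Λ_f(2 - s) = - w_f N^{s-1} Λ_f(s)` (`w_f = ±1` by same-level
  multiplicity one) and the same for `g` give an identity between finite Dirichlet polynomials,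
  which splits prime by prime (independence of the functions `p^{-s}`):
  `X^{e'} P~_f P_g = c X^{e} P_f P~_g`, `e = v_q(N)`, `e' = v_q(N')`, `P~(X) = X² P(q⁻²/X)`.
* With `a_q ∈ {0, ±1}` at bad primes (`BadCoeff`) a coefficient comparison gives `e = e'` and
  `P_f = P_g`, except in the case `e = 1`, `e' = 0`, where it gives `a_q(g) = ±(q + 1)`; this
  is excluded by the strict trivial bound (helper263).  The case `e ≥ 2 > e'`, which is all
  that the Carayol-type statement S36 needs, does not use the strict bound.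

Every statement below is a `Prop`-valued definition (frozen interface).
-/

set_option autoImplicit false

open CongruenceSubgroup UpperHalfPlane Complex Polynomial
open scoped MatrixGroups ModularForm

namespace Fermat.Agent.Lib.Newform.H958.X

open ModularFormClass

/-- The Fricke matrix `[[0, -1], [N, 0]]`. -/
noncomputable def frickeMatrix (N : ℕ) [NeZero N] : GL (Fin 2) ℝ :=
  Matrix.GeneralLinearGroup.mkOfDetNeZero !![0, -1; (N : ℝ), 0]
    (by
      rw [Matrix.det_fin_two_of]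
      have : (N : ℝ) ≠ 0 := Nat.cast_ne_zero.mpr (NeZero.ne N)
      simpa using this)

/-- The completed `L`-function of a cusp form of weight `2` and level `Γ₀(N)` (Mathlib's). -/
noncomputable def Lam {N : ℕ} [NeZero N] (f : CuspForm (Gamma0 N) 2) : ℂ → ℂ :=
  ModularForm.Λ (k := 2) two_pos f

/-- The Euler polynomial `1 - a_p X + [p ∤ N] p X²`. -/
noncomputable def eulerPoly (N : ℕ) (a : ℕ → ℂ) (p : ℕ) : ℂ[X] :=
  1 - C (a p) * X + (if p ∣ N then 0 else C (p : ℂ) * X ^ 2)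

/-- The reversed Euler polynomial `X² P(p⁻² X⁻¹) = X² - a_p p⁻² X + [p ∤ N] p⁻³`. -/
noncomputable def eulerPolyRev (N : ℕ) (a : ℕ → ℂ) (p : ℕ) : ℂ[X] :=
  X ^ 2 - C (a p * ((p : ℂ) ^ 2)⁻¹) * X + (if p ∣ N then 0 else C (((p : ℂ) ^ 3)⁻¹))

/-! ## Leaves -/

/-- **X1** the Fricke involution preserves `S₂(Γ₀(N))`. -/
def FrickeOp : Prop :=
  ∀ (N : ℕ) [NeZero N] (f : CuspForm (Gamma0 N) 2),
    ∃ f' : CuspForm (Gamma0 N) 2, (⇑f' : ℍ → ℂ) = ⇑f ∣[(2 : ℤ)] frickeMatrix N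

/-- **X1b** it is an involution (weight 2). -/
def FrickeInvol : Prop :=
  ∀ (N : ℕ) [NeZero N] (f : ℍ → ℂ),
    (f ∣[(2 : ℤ)] frickeMatrix N) ∣[(2 : ℤ)] frickeMatrix N = f

/-- **X1c** it commutes with `T_ℓ`, `ℓ ∤ N`, on `Γ₀(N)`-invariant functions. -/
def FrickeHecke : Prop :=
  ∀ (N : ℕ) [NeZero N] (ℓ : ℕ), ℓ.Prime → ¬ ℓ ∣ N → ∀ f : CuspForm (Gamma0 N) 2,
    ModularForm.heckeT 2 ℓ (⇑f ∣[(2 : ℤ)] frickeMatrix N) =
      (ModularForm.heckeT 2 ℓ ⇑f) ∣[(2 : ℤ)] frickeMatrix N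

/-- **X3** functional equation (from Mathlib's `WeakFEPair.functional_equation` for
`ModularForm.weakFEPair`, `ε = I² = -1`, and `(f ∣ S)(i t) = N⁻¹ (f ∣ W_N)(i t / N)`). -/
def FunctionalEq : Prop :=
  ∀ (N : ℕ) [NeZero N] (f f' : CuspForm (Gamma0 N) 2),
    (⇑f' : ℍ → ℂ) = ⇑f ∣[(2 : ℤ)] frickeMatrix N →
    ∀ s : ℂ, Lam f (2 - s) = -((N : ℂ) ^ (s - 1)) * Lam f' s

/-- **X4** Dirichlet series (Mathlib's `CuspForm.hasSum_L`, width `1`). -/
def DirichletSeries : Prop :=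
  ∀ (N : ℕ) [NeZero N] (f : CuspForm (Gamma0 N) 2) (s : ℂ), 2 < s.re →
    HasSum (fun n : ℕ => qCoeff f n / (n : ℂ) ^ s) (Lam f s * (2 / Gammaℂ s))

/-- **X5** depletion: multiplying by the Euler polynomials at the primes of a finite set `T`
removes the coefficients `a_n` with `gcd(n, T) ≠ 1`. -/
def Deplete : Prop :=
  ∀ (N : ℕ) [NeZero N] (f : CuspForm (Gamma0 N) 2), f.IsNormalizedEigenform →
    ∀ (T : Finset ℕ), (∀ p ∈ T, p.Prime) → ∀ s : ℂ, 2 < s.re →
      HasSum (fun n : ℕ => (if ∀ p ∈ T, ¬ p ∣ n then qCoeff f n else 0) / (n : ℂ) ^ s)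
        (Lam f s * (2 / Gammaℂ s) *
          ∏ p ∈ T, (eulerPoly N (qCoeff f) p).eval ((p : ℂ) ^ (-s)))

/-- **X7** independence of the functions `p^{-s}`: an identity between products of
one-variable polynomials in `p^{-s}`, `p ∈ T`, splits prime by prime, up to constants. -/
def IndepLocal : Prop :=
  ∀ (T : Finset ℕ), (∀ p ∈ T, p.Prime) → ∀ (A B : ℕ → ℂ[X]),
    (∀ p ∈ T, A p ≠ 0) → (∀ p ∈ T, B p ≠ 0) →
    (∀ s : ℂ, ∏ p ∈ T, (A p).eval ((p : ℂ) ^ (-s)) = ∏ p ∈ T, (B p).eval ((p : ℂ) ^ (-s))) →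
    ∀ q ∈ T, ∃ c : ℂ, c ≠ 0 ∧ A q = C c * B q

/-- **STRICT** (helper263): strict trivial bound, in the form used here. -/
def StrictBound : Prop :=
  ∀ (N : ℕ) [NeZero N] (g : CuspForm (Gamma0 N) 2), g.IsNormalizedEigenform →
    ∀ ℓ : ℕ, ℓ.Prime → ¬ ℓ ∣ N → qCoeff g ℓ ^ 2 ≠ ((ℓ : ℂ) + 1) ^ 2

/-- **MULT-ONE** (same level; copy of `H23.MultOne`, to keep this file independent). -/
def MultOne : Prop :=
  ∀ (N : ℕ) [NeZero N] (f : CuspForm (Gamma0 N) 2), f.IsNewform →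
    ∀ h : CuspForm (Gamma0 N) 2,
      (∀ (ℓ : ℕ) (hℓ : ℓ.Prime) (hℓN : ¬ ℓ ∣ N),
        CuspForm.heckeTLin 2 hℓ hℓN h = qCoeff f ℓ • h) →
      h = qCoeff h 1 • f

/-! ## Targets -/

/-- **X-LOCAL**: the local identity at every prime, for two newforms with the same eigenvalues
outside a finite set. -/
def LocalIdentity : Prop :=
  ∀ (N N' : ℕ) [NeZero N] [NeZero N'] (f : CuspForm (Gamma0 N) 2)
    (g : CuspForm (Gamma0 N') 2), f.IsNewform → g.IsNewform →
    ∀ S : Finset ℕ, (∀ ℓ : ℕ, ℓ.Prime → ℓ ∉ S → qCoeff f ℓ = qCoeff g ℓ) →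
    ∀ q : ℕ, q.Prime → ∃ c : ℂ, c ≠ 0 ∧
      X ^ (N'.factorization q) * eulerPolyRev N (qCoeff f) q * eulerPoly N' (qCoeff g) q =
        C c * (X ^ (N.factorization q) * eulerPoly N (qCoeff f) q *
          eulerPolyRev N' (qCoeff g) q)

/-- **X-SQ** (what S36 needs): if a newform of level `N` and a normalized eigenform of level
`N'` have the same eigenvalues outside a finite set of primes, then `q² ∣ N → q² ∣ N'`. -/
def CrossLevelSq : Prop :=
  ∀ (N N' : ℕ) [NeZero N] [NeZero N'] (f : CuspForm (Gamma0 N) 2)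
    (g : CuspForm (Gamma0 N') 2), f.IsNewform → g.IsNormalizedEigenform →
    ∀ S : Finset ℕ, (∀ ℓ : ℕ, ℓ.Prime → ℓ ∉ S → qCoeff f ℓ = qCoeff g ℓ) →
    ∀ q : ℕ, q.Prime → q ^ 2 ∣ N → q ^ 2 ∣ N'

/-- **X-LEVEL**: the level of a newform divides the level of every normalized eigenform with
the same eigenvalues outside a finite set of primes. -/
def CrossLevel : Prop :=
  ∀ (N N' : ℕ) [NeZero N] [NeZero N'] (f : CuspForm (Gamma0 N) 2)
    (g : CuspForm (Gamma0 N') 2), f.IsNewform → g.IsNormalizedEigenform →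
    ∀ S : Finset ℕ, (∀ ℓ : ℕ, ℓ.Prime → ℓ ∉ S → qCoeff f ℓ = qCoeff g ℓ) → N ∣ N'

/-- **X-SMO**: strong multiplicity one for Prelude-newforms. -/
def StrongMultOne : Prop :=
  ∀ (N N' : ℕ) [NeZero N] [NeZero N'] (f : CuspForm (Gamma0 N) 2)
    (g : CuspForm (Gamma0 N') 2), f.IsNewform → g.IsNewform →
    ∀ S : Finset ℕ, (∀ ℓ : ℕ, ℓ.Prime → ℓ ∉ S → qCoeff f ℓ = qCoeff g ℓ) →
    N = N' ∧ ∀ n : ℕ, qCoeff f n = qCoeff g n

end Fermat.Agent.Lib.Newform.H958.X
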