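import Fermat.Agent.Lib.Newform.H958.X.Spec

/-!
# NEWFORM block X — leaf X4 (`DirichletSeries`)
-/

set_option autoImplicit false

open CongruenceSubgroup UpperHalfPlane Complex
open scoped MatrixGroups ModularForm

namespace Fermat.Agent.Lib.Newform.H958.X

open ModularFormClass

theorem T_mem_Gamma0 (N : ℕ) : ModularGroup.T ∈ Gamma0 N := by
  rw [Gamma0_mem]
  simp [ModularGroup.T]

theorem strictWidthInfty_Gamma0 (N : ℕ) :
    (Gamma0 N : Subgroup (GL (Fin 2) ℝ)).strictWidthInfty = 1 :=
  Subgroup.strictWidthInfty_eq_one_of_T_mem (T_mem_Gamma0 N)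

theorem dirichletSeries : DirichletSeries := by
  intro N _ f s hs
  have h := CuspForm.hasSum_L (Γ := (Gamma0 N : Subgroup (GL (Fin 2) ℝ))) (k := 2) two_pos f
    (s := s) (by norm_num; linarith)
  rw [strictWidthInfty_Gamma0 N] at h
  simp only [ofReal_one, one_cpow, one_mul] at h
  exact h

end Fermat.Agent.Lib.Newform.H958.X
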