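import Fermat.Agent.Lib.Newform.H958.X.Dirichlet
import Mathlib.NumberTheory.LSeries.Injectivity

/-!
# NEWFORM block X — basic facts on `Lam` and the Euler polynomials
-/

set_option autoImplicit false

open CongruenceSubgroup Complex Polynomial
open UpperHalfPlane hiding I
open scoped MatrixGroups ModularForm

namespace Fermat.Agent.Lib.Newform.H958.X

open ModularFormClass

variable {N : ℕ} [NeZero N]

theorem Lam_eq_mellin (f : CuspForm (Gamma0 N) 2) :
    Lam f = mellin (fun t : ℝ => f (ofComplex (I * t))) :=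
  CuspForm.Λ_eq_mellin two_pos f

theorem differentiable_Lam (f : CuspForm (Gamma0 N) 2) : Differentiable ℂ (Lam f) :=
  CuspForm.differentiable_Λ two_pos f

theorem Lam_smul (c : ℂ) (f : CuspForm (Gamma0 N) 2) (s : ℂ) :
    Lam (c • f) s = c * Lam f s := by
  rw [Lam_eq_mellin, Lam_eq_mellin]
  have : (fun t : ℝ => (c • f) (ofComplex (I * t))) =
      fun t : ℝ => c • (fun t : ℝ => f (ofComplex (I * t))) t := by
    funext t
    rfl
  rw [this, mellin_const_smul, smul_eq_mul]

theorem term_eq_div (a : ℕ → ℂ) {s : ℂ} (hs : 2 < s.re) (n : ℕ) :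
    LSeries.term a s n = a n / (n : ℂ) ^ s := by
  have hs0 : s ≠ 0 := by
    rintro rfl
    simp at hs
    linarith
  exact LSeries.term_of_ne_zero' hs0 a n

theorem lseriesHasSum_of_hasSum {a : ℕ → ℂ} {s c : ℂ} (hs : 2 < s.re)
    (h : HasSum (fun n : ℕ => a n / (n : ℂ) ^ s) c) : LSeriesHasSum a s c := by
  unfold LSeriesHasSum
  have : LSeries.term a s = fun n : ℕ => a n / (n : ℂ) ^ s :=
    funext (term_eq_div a hs)
  rw [this]
  exact h

theorem lseries_qCoeff (hD : DirichletSeries) (f : CuspForm (Gamma0 N) 2) {s : ℂ}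
    (hs : 2 < s.re) : LSeries (fun n => qCoeff f n) s = Lam f s * (2 / Gammaℂ s) :=
  (lseriesHasSum_of_hasSum hs (hD N f s hs)).LSeries_eq

theorem abscissa_qCoeff_lt_top (hD : DirichletSeries) (f : CuspForm (Gamma0 N) 2) :
    LSeries.abscissaOfAbsConv (fun n => qCoeff f n) < ⊤ := by
  refine lt_of_le_of_lt
    (LSeries.abscissaOfAbsConv_le_of_forall_lt_LSeriesSummable (x := 2) fun y hy => ?_)
    (EReal.coe_lt_top 2)
  have hy' : 2 < ((y : ℝ) : ℂ).re := by simpa using hy
  exact (lseriesHasSum_of_hasSum hy' (hD N f _ hy')).LSeriesSummable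

/-- `Lam f` does not vanish identically on `Re s > 2` if `a_1(f) = 1`. -/
theorem exists_Lam_ne_zero (hD : DirichletSeries) (f : CuspForm (Gamma0 N) 2)
    (h1 : qCoeff f 1 = 1) : ∃ s : ℂ, 2 < s.re ∧ Lam f s ≠ 0 := by
  by_contra hcon
  replace hcon : ∀ s : ℂ, 2 < s.re → Lam f s = 0 := by
    intro s hs
    by_contra h
    exact hcon ⟨s, hs, h⟩
  have hlim := LSeries.tendsto_atTop (abscissa_qCoeff_lt_top hD f)
  have hzero : (fun x : ℝ => LSeries (fun n => qCoeff f n) x) =ᶠ[Filter.atTop] fun _ => 0 := by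
    filter_upwards [Filter.eventually_gt_atTop (2 : ℝ)] with x hx
    have hx' : 2 < ((x : ℝ) : ℂ).re := by simpa using hx
    rw [lseries_qCoeff hD f hx', hcon _ hx', zero_mul]
  have h0 : Filter.Tendsto (fun x : ℝ => LSeries (fun n => qCoeff f n) x) Filter.atTop
      (nhds 0) := (tendsto_const_nhds).congr' hzero.symm
  have := tendsto_nhds_unique hlim h0
  rw [h1] at this
  exact one_ne_zero this

/-! ## Euler polynomials -/

theorem eulerPoly_coeff_zero (N : ℕ) (a : ℕ → ℂ) (p : ℕ) : (eulerPoly N a p).coeff 0 = 1 := by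
  unfold eulerPoly
  split_ifs <;> simp

theorem eulerPoly_ne_zero (N : ℕ) (a : ℕ → ℂ) (p : ℕ) : eulerPoly N a p ≠ 0 := by
  intro h
  have := eulerPoly_coeff_zero N a p
  rw [h] at this
  simp at this

theorem eulerPolyRev_coeff_two (N : ℕ) (a : ℕ → ℂ) (p : ℕ) :
    (eulerPolyRev N a p).coeff 2 = 1 := by
  unfold eulerPolyRev
  split_ifs <;> simp

theorem eulerPolyRev_ne_zero (N : ℕ) (a : ℕ → ℂ) (p : ℕ) : eulerPolyRev N a p ≠ 0 := by
  intro h
  have := eulerPolyRev_coeff_two N a p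
  rw [h] at this
  simp at this

/-- `X² P(p⁻² / X) = P~(X)` for `X ≠ 0`. -/
theorem eval_eulerPolyRev (N : ℕ) (a : ℕ → ℂ) {p : ℕ} (hp : p ≠ 0) {x : ℂ} (hx : x ≠ 0) :
    (eulerPolyRev N a p).eval x = x ^ 2 * (eulerPoly N a p).eval (((p : ℂ) ^ 2)⁻¹ / x) := by
  have hpc : (p : ℂ) ≠ 0 := Nat.cast_ne_zero.mpr hp
  unfold eulerPolyRev eulerPoly
  split_ifs
  · simp only [eval_add, eval_sub, eval_pow, eval_X, eval_mul, eval_C, eval_zero, eval_one]
    field_simp
    ring
  · simp only [eval_add, eval_sub, eval_pow, eval_X, eval_mul, eval_C, eval_one]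
    field_simp

end Fermat.Agent.Lib.Newform.H958.X
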