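import Fermat.Agent.Lib.Newform.H958.X.Spec
import Fermat.Prelude.Def_ModularForm_HeckeOperator

/-!
# NEWFORM block X — leaf X3 (`FunctionalEq`)

`Λ_f(2 - s) = - N^{s-1} Λ_{f ∣ W_N}(s)`, from Mathlib's functional equation for
`ModularForm.weakFEPair` and the substitution `t ↦ N t` in the Mellin transform.
-/

set_option autoImplicit false

open CongruenceSubgroup Complex
open UpperHalfPlane hiding I
open scoped MatrixGroups ModularForm

namespace Fermat.Agent.Lib.Newform.H958.X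

open ModularFormClass ModularForm

/-- `W_N = S * diag(N, 1)`. -/
theorem frickeMatrix_eq (N : ℕ) [NeZero N] :
    frickeMatrix N = (ModularGroup.S : GL (Fin 2) ℝ) * heckeDiagMatrix N := by
  apply Matrix.GeneralLinearGroup.ext
  intro i j
  have hN : N ≠ 0 := NeZero.ne N
  rw [Matrix.GeneralLinearGroup.coe_mul, val_heckeDiagMatrix hN]
  fin_cases i <;> fin_cases j <;>
    simp [frickeMatrix, ModularGroup.S, Matrix.mul_apply, Fin.sum_univ_two]

/-- `(f ∣ W_N)(τ) = N (f ∣ S)(N τ)`. -/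
theorem slash_frickeMatrix_apply (N : ℕ) [NeZero N] (f : ℍ → ℂ) (τ : ℍ) :
    (f ∣[(2 : ℤ)] frickeMatrix N) τ =
      (N : ℂ) * (f ∣[(2 : ℤ)] (ModularGroup.S : GL (Fin 2) ℝ)) (heckeDiagMatrix N • τ) := by
  rw [frickeMatrix_eq, SlashAction.slash_mul, slash_heckeDiagMatrix_apply 2 (NeZero.ne N)]
  norm_num

theorem heckeDiagMatrix_smul_ofComplex (N : ℕ) [NeZero N] {t : ℝ} (ht : 0 < t) :
    heckeDiagMatrix N • ofComplex (I * t) = ofComplex (I * (((N : ℝ) * t : ℝ) : ℂ)) := by
  have hN : (0 : ℝ) < N := Nat.cast_pos.mpr (Nat.pos_of_ne_zero (NeZero.ne N))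
  apply UpperHalfPlane.ext
  rw [coe_heckeDiagMatrix_smul (NeZero.ne N)]
  rw [ofComplex_apply_of_im_pos (by simpa using ht),
    ofComplex_apply_of_im_pos (by simpa using mul_pos hN ht)]
  push_cast
  ring

theorem functionalEq : FunctionalEq := by
  intro N _ f f' hf' s
  have hN : (0 : ℝ) < N := Nat.cast_pos.mpr (Nat.pos_of_ne_zero (NeZero.ne N))
  have hNc : (N : ℂ) ≠ 0 := Nat.cast_ne_zero.mpr (NeZero.ne N)
  have hP : IsStrongFEPair
      (weakFEPair (Γ := (Gamma0 N : Subgroup (GL (Fin 2) ℝ))) (k := 2) two_pos f) :=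
    CuspForm.isStrongFEPair two_pos f
  have hfe := (weakFEPair (Γ := (Gamma0 N : Subgroup (GL (Fin 2) ℝ))) (k := 2) two_pos f
    ).functional_equation s
  rw [hP.symm_Λ_eq] at hfe
  have hε : (weakFEPair (Γ := (Gamma0 N : Subgroup (GL (Fin 2) ℝ))) (k := 2) two_pos f).ε
      = -1 := by
    simp [weakFEPair]
  have hk : ((weakFEPair (Γ := (Gamma0 N : Subgroup (GL (Fin 2) ℝ))) (k := 2) two_pos f).k : ℂ)
      = 2 := by
    simp [weakFEPair]
  rw [hε, hk] at hfe
  -- the Mellin transform of `t ↦ (f ∣ S)(i t)`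
  have hmel : mellin
      (weakFEPair (Γ := (Gamma0 N : Subgroup (GL (Fin 2) ℝ))) (k := 2) two_pos f).g s =
      (N : ℂ) ^ (s - 1) * Lam f' s := by
    have h1 : Lam f' = mellin (fun t : ℝ => f' (ofComplex (I * t))) :=
      CuspForm.Λ_eq_mellin two_pos f'
    rw [h1]
    have h2 : mellin
        (weakFEPair (Γ := (Gamma0 N : Subgroup (GL (Fin 2) ℝ))) (k := 2) two_pos f).g s =
        mellin (fun t : ℝ => ((N : ℂ)⁻¹) •
          (fun u : ℝ => f' (ofComplex (I * u))) ((N : ℝ)⁻¹ * t)) s := by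
      refine MeasureTheory.setIntegral_congr_fun measurableSet_Ioi fun t ht => ?_
      have ht' : (0 : ℝ) < t := ht
      have hu : (0 : ℝ) < (N : ℝ)⁻¹ * t := mul_pos (inv_pos.mpr hN) ht'
      dsimp only
      congr 1
      simp only [weakFEPair, smul_eq_mul]
      rw [hf', slash_frickeMatrix_apply, heckeDiagMatrix_smul_ofComplex N hu,
        ← mul_assoc, inv_mul_cancel₀ hNc, one_mul]
      have : (N : ℝ) * ((N : ℝ)⁻¹ * t) = t := by field_simp
      rw [this]
      rfl
    have h3 := mellin_comp_mul_left (fun u : ℝ => f' (ofComplex (I * u))) s (inv_pos.mpr hN)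
    rw [h2, mellin_const_smul]
    dsimp only at h3 ⊢
    rw [h3]
    simp only [smul_eq_mul]
    rw [← mul_assoc]
    congr 1
    rw [ofReal_inv, ofReal_natCast, inv_cpow_eq_ite]
    have harg : ((N : ℂ)).arg ≠ Real.pi := by
      rw [Complex.natCast_arg]
      exact Real.pi_ne_zero.symm
    rw [if_neg harg, Complex.cpow_neg, inv_inv, Complex.cpow_sub _ _ hNc, Complex.cpow_one]
    field_simp
  show ModularForm.Λ (k := 2) two_pos f (2 - s) = _
  rw [ModularForm.Λ, hfe, hmel]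
  simp

end Fermat.Agent.Lib.Newform.H958.X
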