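import Fermat.Agent.Lib.Newform.H958.X.Basic
import Fermat.Agent.Lib.Newform.H958.X.FE
import Fermat.Agent.Lib.Newform.H958.Spec

/-!
# NEWFORM block X — step X2: a newform is an eigenvector of the Fricke involution,
and the functional equation of its `L`-function
-/

set_option autoImplicit false

open CongruenceSubgroup Complex Polynomial
open UpperHalfPlane hiding I
open scoped MatrixGroups ModularForm

namespace Fermat.Agent.Lib.Newform.H958.X

open ModularFormClass ModularForm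

variable {N : ℕ} [NeZero N]

theorem det_frickeMatrix (N : ℕ) [NeZero N] : ((frickeMatrix N).det : ℝ) = N := by
  rw [Matrix.GeneralLinearGroup.val_det_apply]
  simp [frickeMatrix, Matrix.det_fin_two_of]

theorem σ_frickeMatrix (N : ℕ) [NeZero N] : UpperHalfPlane.σ (frickeMatrix N) = .refl ℝ ℂ := by
  have hN : (0 : ℝ) < N := Nat.cast_pos.mpr (Nat.pos_of_ne_zero (NeZero.ne N))
  rw [UpperHalfPlane.σ, if_pos (by rw [det_frickeMatrix]; exact hN)]

theorem smul_slash_frickeMatrix (N : ℕ) [NeZero N] (c : ℂ) (f : ℍ → ℂ) :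
    (c • f) ∣[(2 : ℤ)] frickeMatrix N = c • (f ∣[(2 : ℤ)] frickeMatrix N) := by
  rw [ModularForm.smul_slash, σ_frickeMatrix, ContinuousAlgEquiv.refl_apply]

/-- **X2**: the Fricke involution acts on a newform by a sign. -/
theorem frickeEigen_of (hO : FrickeOp) (hI : FrickeInvol) (hH : FrickeHecke) (hM : MultOne)
    (hET : Fermat.Agent.Lib.Newform.H958.EigenT)
    {f : CuspForm (Gamma0 N) 2} (hf : f.IsNewform) :
    ∃ w : ℂ, w ^ 2 = 1 ∧ ∀ f' : CuspForm (Gamma0 N) 2,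
      (⇑f' : ℍ → ℂ) = ⇑f ∣[(2 : ℤ)] frickeMatrix N → f' = w • f := by
  obtain ⟨f₁, hf₁⟩ := hO N f
  -- `f₁` is an eigenvector of all `T_ℓ`
  have heig : ∀ (ℓ : ℕ) (hℓ : ℓ.Prime) (hℓN : ¬ ℓ ∣ N),
      CuspForm.heckeTLin 2 hℓ hℓN f₁ = qCoeff f ℓ • f₁ := by
    intro ℓ hℓ hℓN
    apply DFunLike.coe_injective
    have h1 := congrArg (fun F : CuspForm (Gamma0 N) 2 => (⇑F : ℍ → ℂ))
      (hET N f hf.1 ℓ hℓ hℓN)
    simp only [CuspForm.coe_heckeTLin_apply] at h1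
    rw [CuspForm.coe_heckeTLin_apply, hf₁, hH N ℓ hℓ hℓN f, h1]
    have h2 : (⇑(qCoeff f ℓ • f) : ℍ → ℂ) = qCoeff f ℓ • (⇑f : ℍ → ℂ) := rfl
    have h3 : (⇑(qCoeff f ℓ • f₁) : ℍ → ℂ) = qCoeff f ℓ • (⇑f₁ : ℍ → ℂ) := rfl
    rw [h2, h3, smul_slash_frickeMatrix, hf₁]
  have hf₁w := hM N f hf f₁ heig
  set w := qCoeff f₁ 1 with hw
  refine ⟨w, ?_, ?_⟩
  · -- `f = (f ∣ W) ∣ W = w² f`
    have h4 : (⇑f : ℍ → ℂ) = (w * w) • (⇑f : ℍ → ℂ) := by
      have h5 := hI N (⇑f : ℍ → ℂ)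
      rw [← hf₁] at h5
      have h6 : (⇑f₁ : ℍ → ℂ) = w • (⇑f : ℍ → ℂ) := by
        rw [hf₁w]
        rfl
      rw [h6, smul_slash_frickeMatrix, ← hf₁, h6, smul_smul] at h5
      exact h5.symm
    have hfne : (⇑f : ℍ → ℂ) ≠ 0 := by
      intro h
      exact hf.ne_zero (DFunLike.coe_injective h)
    have h7 : (1 - w * w) • (⇑f : ℍ → ℂ) = 0 := by
      rw [sub_smul, one_smul, ← h4, sub_self]
    rcases smul_eq_zero.mp h7 with h | h
    · rw [pow_two]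
      exact (sub_eq_zero.mp h).symm
    · exact absurd h hfne
  · intro f' hf'
    have : f' = f₁ := DFunLike.coe_injective (by rw [hf', hf₁])
    rw [this]
    exact hf₁w

/-- Functional equation of a newform: `Λ_f(2 - s) = - w N^{s-1} Λ_f(s)`, `w = ±1`. -/
theorem functionalEq_newform_of (hO : FrickeOp) (hI : FrickeInvol) (hH : FrickeHecke)
    (hM : MultOne) (hET : Fermat.Agent.Lib.Newform.H958.EigenT)
    {f : CuspForm (Gamma0 N) 2} (hf : f.IsNewform) :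
    ∃ w : ℂ, w ^ 2 = 1 ∧ ∀ s : ℂ, Lam f (2 - s) = -(w * (N : ℂ) ^ (s - 1)) * Lam f s := by
  obtain ⟨w, hw, hfw⟩ := frickeEigen_of hO hI hH hM hET hf
  obtain ⟨f₁, hf₁⟩ := hO N f
  refine ⟨w, hw, fun s => ?_⟩
  rw [functionalEq N f f₁ hf₁ s, hfw f₁ hf₁, Lam_smul]
  ring

end Fermat.Agent.Lib.Newform.H958.X
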