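import Fermat.Agent.Lib.Newform.H958.X.MainOf
import Fermat.Agent.Lib.Newform.H683.XIndep
import Fermat.Agent.Lib.Newform.H683.XDepleteMain
import Fermat.Agent.Lib.Newform.H683.SpecLeaves
import Fermat.Agent.Lib.Newform.H16.XFricke
import Fermat.Agent.Lib.Newform.H803.XMultOne
import Fermat.Agent.Lib.Newform.H863.X8
import Fermat.Agent.Lib.Newform.H263.XStrict

/-!
# NEWFORM block X — unconditional results (consumer API, part 2)

Cross-level strong multiplicity one for Prelude-newforms of weight 2 on `Γ₀(N)`, proved with the
functional equation of the Hecke `L`-function (Mathlib) and the strict trivial bound.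

* `crossLevelSq` : a newform of level `N` and a normalized eigenform of level `N'` with the
  same `a_ℓ` outside a finite set of primes satisfy `q² ∣ N → q² ∣ N'`  (input of S36);
* `crossLevel` : under the same hypotheses `N ∣ N'`;
* `strongMultOne` : two newforms with the same `a_ℓ` outside a finite set of primes have the
  same level and the same `q`-expansion;
* `localIdentity` : the local identity between Euler polynomials at every prime.

Leaves: helper16 (Fricke), helper683 (depletion, independence, `EigenT`), helper803
(same-level multiplicity one), helper863 (local case analysis), helper263 (strict bound),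
helper958 (functional equation, Dirichlet series, global identity, assembly).
-/

set_option autoImplicit false

open CongruenceSubgroup

namespace Fermat.Agent.Lib.Newform.H958.X

theorem localIdentity : LocalIdentity :=
  localIdentity_of Fermat.Agent.Lib.Newform.H683.indepLocal dirichletSeries
    Fermat.Agent.Lib.Newform.H683.deplete Fermat.Agent.Lib.Newform.H16.frickeOp
    Fermat.Agent.Lib.Newform.H16.frickeInvol Fermat.Agent.Lib.Newform.H16.frickeHecke
    Fermat.Agent.Lib.Newform.H803.multOne Fermat.Agent.Lib.Newform.H683.eigenT

theorem crossLevelSq : CrossLevelSq :=
  Fermat.Agent.Lib.Newform.H863.X8.crossLevelSq_of localIdentity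

theorem crossLevel : CrossLevel :=
  Fermat.Agent.Lib.Newform.H863.X8.crossLevel_of localIdentity
    Fermat.Agent.Lib.Newform.H263.strictBound

theorem strongMultOne : StrongMultOne :=
  Fermat.Agent.Lib.Newform.H863.X8.strongMultOne_of localIdentity
    Fermat.Agent.Lib.Newform.H263.strictBound

end Fermat.Agent.Lib.Newform.H958.X
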