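import Fermat.Agent.Lib.Newform.H958.X.Eigen
import Fermat.Agent.Lib.Newform.H443.SMOCore

/-!
# NEWFORM block X — step X6: the global identity between Euler polynomials
-/

set_option autoImplicit false

open CongruenceSubgroup Complex Polynomial
open UpperHalfPlane hiding I
open scoped MatrixGroups ModularForm

namespace Fermat.Agent.Lib.Newform.H958.X

open ModularFormClass ModularForm

/-- The product of the Euler polynomials at the primes of `T`, evaluated at `p ^ (-s)`. -/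
noncomputable def eulerProd (N : ℕ) (a : ℕ → ℂ) (T : Finset ℕ) (s : ℂ) : ℂ :=
  ∏ p ∈ T, (eulerPoly N a p).eval ((p : ℂ) ^ (-s))

theorem differentiable_cpow_neg (p : ℕ) (hp : p ≠ 0) :
    Differentiable ℂ (fun s : ℂ => (p : ℂ) ^ (-s)) := by
  have hpc : (p : ℂ) ≠ 0 := Nat.cast_ne_zero.mpr hp
  intro s
  exact (differentiableAt_id.neg).const_cpow (Or.inl hpc)

theorem differentiable_eulerProd (N : ℕ) (a : ℕ → ℂ) (T : Finset ℕ) (hT : ∀ p ∈ T, p.Prime) :
    Differentiable ℂ (eulerProd N a T) := by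
  unfold eulerProd
  apply Differentiable.fun_finsetProd
  intro p hp
  exact (Polynomial.differentiable _).comp (differentiable_cpow_neg p (hT p hp).ne_zero)

theorem differentiable_natCast_cpow (N : ℕ) [NeZero N] :
    Differentiable ℂ (fun s : ℂ => (N : ℂ) ^ (s - 1)) := by
  have hNc : (N : ℂ) ≠ 0 := Nat.cast_ne_zero.mpr (NeZero.ne N)
  intro s
  exact (differentiableAt_id.sub_const 1).const_cpow (Or.inl hNc)

variable {N N' : ℕ} [NeZero N] [NeZero N']

/-- Step (a): the depleted coefficients agree. -/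
theorem depleted_eq {f : CuspForm (Gamma0 N) 2} {g : CuspForm (Gamma0 N') 2}
    (hf : f.IsNormalizedEigenform) (hg : g.IsNormalizedEigenform)
    (T : Finset ℕ) (hT : ∀ p ∈ T, p.Prime)
    (hTN : N.primeFactors ⊆ T) (hTN' : N'.primeFactors ⊆ T)
    (hagree : ∀ ℓ : ℕ, ℓ.Prime → ℓ ∉ T → qCoeff f ℓ = qCoeff g ℓ) (n : ℕ)
    (hn : ∀ p ∈ T, ¬ p ∣ n) : qCoeff f n = qCoeff g n := by
  have hN : N ≠ 0 := NeZero.ne N
  have hN' : N' ≠ 0 := NeZero.ne N'
  -- every prime factor of `D` lies in `T`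
  have hD : ∀ p : ℕ, p.Prime → p ∣ N * N' * ∏ t ∈ T, t → p ∈ T := by
    intro p hp hpD
    rcases (Nat.Prime.dvd_mul hp).mp hpD with h | h
    · rcases (Nat.Prime.dvd_mul hp).mp h with h | h
      · exact hTN (Nat.mem_primeFactors.mpr ⟨hp, h, hN⟩)
      · exact hTN' (Nat.mem_primeFactors.mpr ⟨hp, h, hN'⟩)
    · obtain ⟨t, htT, hpt⟩ := (Prime.dvd_finsetProd_iff hp.prime _).mp h
      rw [(Nat.prime_dvd_prime_iff_eq hp (hT t htT)).mp hpt]
      exact htT
  symm
  refine Fermat.Agent.Lib.Newform.H443.qCoeff_eq_of_prime_eq (D := N * N' * ∏ t ∈ T, t)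
    ((dvd_mul_right N N').mul_right _) ((dvd_mul_left N' N).mul_right _) hf hg ?_ n ?_
  · intro ℓ hℓ hℓD
    refine (hagree ℓ hℓ fun hℓT => hℓD ?_).symm
    exact (Finset.dvd_prod_of_mem _ hℓT).mul_left _
  · exact Nat.coprime_of_dvd fun p hp hpn hpD => hn p (hD p hp hpD) hpn

theorem Gammaℂ_ne_zero_of_pos {s : ℂ} (hs : 0 < s.re) : Gammaℂ s ≠ 0 := by
  rw [Gammaℂ_def]
  have h1 : ((2 : ℂ) * (Real.pi : ℂ)) ≠ 0 :=
    mul_ne_zero two_ne_zero (ofReal_ne_zero.mpr Real.pi_ne_zero)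
  exact mul_ne_zero (mul_ne_zero two_ne_zero ((cpow_ne_zero_iff_of_exponent_ne_zero
    (by
      intro h
      rw [neg_eq_zero] at h
      rw [h] at hs
      simp at hs)).mpr h1)) (Complex.Gamma_ne_zero_of_re_pos hs)

/-- An entire function vanishing on the half-plane `Re s > 2` vanishes identically. -/
theorem eq_zero_of_eq_zero_on_halfplane {F : ℂ → ℂ} (hF : Differentiable ℂ F)
    (h : ∀ s : ℂ, 2 < s.re → F s = 0) : ∀ s : ℂ, F s = 0 := by
  have han : AnalyticOnNhd ℂ F Set.univ :=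
    (hF.differentiableOn).analyticOnNhd isOpen_univ
  have hev : F =ᶠ[nhds (3 : ℂ)] 0 := by
    have hopen : IsOpen {s : ℂ | 2 < s.re} := isOpen_lt continuous_const continuous_re
    have hmem : (3 : ℂ) ∈ {s : ℂ | 2 < s.re} := by
      show (2 : ℝ) < (3 : ℂ).re
      simp only [re_ofNat]
      norm_num
    filter_upwards [hopen.mem_nhds hmem] with s hs
    exact h s hs
  have := han.eqOn_zero_of_preconnected_of_eventuallyEq_zero isPreconnected_univ
    (Set.mem_univ (3 : ℂ)) hev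
  intro s
  exact this (Set.mem_univ s)

/-- Step (b)+(c): `Λ_f P_f = Λ_g P_g` everywhere. -/
theorem Lam_mul_eulerProd_eq (hDep : Deplete)
    {f : CuspForm (Gamma0 N) 2} {g : CuspForm (Gamma0 N') 2}
    (hf : f.IsNormalizedEigenform) (hg : g.IsNormalizedEigenform)
    (T : Finset ℕ) (hT : ∀ p ∈ T, p.Prime)
    (hTN : N.primeFactors ⊆ T) (hTN' : N'.primeFactors ⊆ T)
    (hagree : ∀ ℓ : ℕ, ℓ.Prime → ℓ ∉ T → qCoeff f ℓ = qCoeff g ℓ) (s : ℂ) :
    Lam f s * eulerProd N (qCoeff f) T s = Lam g s * eulerProd N' (qCoeff g) T s := by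
  have key : ∀ s : ℂ, 2 < s.re →
      Lam f s * eulerProd N (qCoeff f) T s - Lam g s * eulerProd N' (qCoeff g) T s = 0 := by
    intro s hs
    have h1 := hDep N f hf T hT s hs
    have h2 := hDep N' g hg T hT s hs
    have hfun : (fun n : ℕ => (if ∀ p ∈ T, ¬ p ∣ n then qCoeff f n else 0) / (n : ℂ) ^ s) =
        fun n : ℕ => (if ∀ p ∈ T, ¬ p ∣ n then qCoeff g n else 0) / (n : ℂ) ^ s := by
      funext n
      by_cases hn : ∀ p ∈ T, ¬ p ∣ n
      · rw [if_pos hn, if_pos hn, depleted_eq hf hg T hT hTN hTN' hagree n hn]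
      · rw [if_neg hn, if_neg hn]
    rw [hfun] at h1
    have h3 := h1.unique h2
    have hG : (2 : ℂ) / Gammaℂ s ≠ 0 :=
      div_ne_zero two_ne_zero (Gammaℂ_ne_zero_of_pos (by linarith))
    have h4 : (2 / Gammaℂ s) * (Lam f s * eulerProd N (qCoeff f) T s) =
        (2 / Gammaℂ s) * (Lam g s * eulerProd N' (qCoeff g) T s) := by
      unfold eulerProd
      linear_combination h3
    rw [sub_eq_zero]
    exact mul_left_cancel₀ hG h4
  have hdiff : Differentiable ℂ (fun s : ℂ =>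
      Lam f s * eulerProd N (qCoeff f) T s - Lam g s * eulerProd N' (qCoeff g) T s) :=
    ((differentiable_Lam f).mul (differentiable_eulerProd N _ T hT)).sub
      ((differentiable_Lam g).mul (differentiable_eulerProd N' _ T hT))
  exact sub_eq_zero.mp (eq_zero_of_eq_zero_on_halfplane hdiff key s)

/-- **X6**: the global identity between the Euler polynomials of two newforms with the same
eigenvalues outside `T`. -/
theorem globalIdentity_of (hD : DirichletSeries) (hDep : Deplete)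
    {f : CuspForm (Gamma0 N) 2} {g : CuspForm (Gamma0 N') 2}
    (hf : f.IsNormalizedEigenform) (hg : g.IsNormalizedEigenform) {wf wg : ℂ}
    (hFEf : ∀ s : ℂ, Lam f (2 - s) = -(wf * (N : ℂ) ^ (s - 1)) * Lam f s)
    (hFEg : ∀ s : ℂ, Lam g (2 - s) = -(wg * (N' : ℂ) ^ (s - 1)) * Lam g s)
    (T : Finset ℕ) (hT : ∀ p ∈ T, p.Prime)
    (hTN : N.primeFactors ⊆ T) (hTN' : N'.primeFactors ⊆ T)
    (hagree : ∀ ℓ : ℕ, ℓ.Prime → ℓ ∉ T → qCoeff f ℓ = qCoeff g ℓ) (s : ℂ) :
    wf * (N : ℂ) ^ (s - 1) * eulerProd N (qCoeff f) T (2 - s) * eulerProd N' (qCoeff g) T s =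
      wg * (N' : ℂ) ^ (s - 1) * eulerProd N (qCoeff f) T s * eulerProd N' (qCoeff g) T (2 - s) := by
  have hI := Lam_mul_eulerProd_eq hDep hf hg T hT hTN hTN' hagree
  -- `Λ_f · U = 0`
  have hprod : ∀ s : ℂ, Lam f s *
      (wf * (N : ℂ) ^ (s - 1) * eulerProd N (qCoeff f) T (2 - s) * eulerProd N' (qCoeff g) T s -
        wg * (N' : ℂ) ^ (s - 1) * eulerProd N (qCoeff f) T s *
          eulerProd N' (qCoeff g) T (2 - s)) = 0 := by
    intro s
    have h1 := hI s
    have h2 := hI (2 - s)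
    rw [hFEf s, hFEg s] at h2
    linear_combination (-eulerProd N' (qCoeff g) T s) * h2 -
      (wg * (N' : ℂ) ^ (s - 1) * eulerProd N' (qCoeff g) T (2 - s)) * h1
  -- analyticity
  have hLan : AnalyticOnNhd ℂ (Lam f) Set.univ :=
    ((differentiable_Lam f).differentiableOn).analyticOnNhd isOpen_univ
  have hsub : Differentiable ℂ (fun s : ℂ => (2 : ℂ) - s) :=
    (differentiable_const _).sub differentiable_id
  have hUd : Differentiable ℂ (fun s : ℂ =>
      wf * (N : ℂ) ^ (s - 1) * eulerProd N (qCoeff f) T (2 - s) * eulerProd N' (qCoeff g) T s -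
        wg * (N' : ℂ) ^ (s - 1) * eulerProd N (qCoeff f) T s *
          eulerProd N' (qCoeff g) T (2 - s)) := by
    have e1 := differentiable_eulerProd N (qCoeff f) T hT
    have e2 := differentiable_eulerProd N' (qCoeff g) T hT
    have c1 := differentiable_natCast_cpow N
    have c2 := differentiable_natCast_cpow N'
    exact ((((differentiable_const wf).mul c1).mul (e1.comp hsub)).mul e2).sub
      ((((differentiable_const wg).mul c2).mul e1).mul (e2.comp hsub))
  have hUan := (hUd.differentiableOn).analyticOnNhd isOpen_univ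
  rcases AnalyticOnNhd.eq_zero_or_eq_zero_of_mul_eq_zero hLan hUan
    (fun s _ => hprod s) isPreconnected_univ with h | h
  · exfalso
    obtain ⟨s₀, -, hs₀⟩ := exists_Lam_ne_zero hD f hf.qCoeff_one
    exact hs₀ (h s₀ (Set.mem_univ s₀))
  · exact sub_eq_zero.mp (h s (Set.mem_univ s))

end Fermat.Agent.Lib.Newform.H958.X
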