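import Fermat.Agent.Lib.Newform.H958.X.Global

/-!
# NEWFORM block X — from the global identity to the local identities
-/

set_option autoImplicit false

open CongruenceSubgroup Complex Polynomial
open UpperHalfPlane hiding I
open scoped MatrixGroups ModularForm

namespace Fermat.Agent.Lib.Newform.H958.X

open ModularFormClass ModularForm

/-- `(∏_{p ∈ T} p ^ k p) ^ z = ∏_{p ∈ T} (p ^ z) ^ k p`. -/
theorem natCast_prod_pow_cpow (T : Finset ℕ) (k : ℕ → ℕ) (z : ℂ) :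
    (((∏ p ∈ T, p ^ k p : ℕ) : ℂ)) ^ z = ∏ p ∈ T, ((p : ℂ) ^ z) ^ k p := by
  classical
  induction T using Finset.induction_on with
  | empty => simp
  | insert a T ha ih =>
    rw [Finset.prod_insert ha, Finset.prod_insert ha, Nat.cast_mul, natCast_mul_natCast_cpow, ih]
    congr 1
    rw [Nat.cast_pow, ← natCast_cpow_natCast_mul, Complex.cpow_nat_mul]

/-- `N = ∏_{p ∈ T} p ^ v_p(N)` if `T` is a set of primes containing the prime factors of `N`. -/
theorem prod_pow_factorization_eq {N : ℕ} (hN : N ≠ 0) (T : Finset ℕ)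
    (hTN : N.primeFactors ⊆ T) : ∏ p ∈ T, p ^ N.factorization p = N := by
  have h1 : ∏ p ∈ T, p ^ N.factorization p = ∏ p ∈ N.primeFactors, p ^ N.factorization p := by
    refine (Finset.prod_subset hTN fun p _ hp => ?_).symm
    have : N.factorization p = 0 := by
      rw [← Finsupp.notMem_support_iff, Nat.support_factorization]
      exact hp
    rw [this, pow_zero]
  rw [h1]
  exact Nat.prod_factorization_pow_eq_self hN

theorem natCast_cpow_eq_prod {N : ℕ} (hN : N ≠ 0) (T : Finset ℕ)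
    (hTN : N.primeFactors ⊆ T) (z : ℂ) :
    (N : ℂ) ^ z = ∏ p ∈ T, ((p : ℂ) ^ z) ^ N.factorization p := by
  rw [← natCast_prod_pow_cpow, prod_pow_factorization_eq hN T hTN]

/-- `p ^ (-(2 - s)) = p⁻² / p ^ (-s)`. -/
theorem cpow_neg_two_sub {p : ℕ} (hp : p ≠ 0) (s : ℂ) :
    (p : ℂ) ^ (-(2 - s)) = ((p : ℂ) ^ 2)⁻¹ / (p : ℂ) ^ (-s) := by
  have hpc : (p : ℂ) ≠ 0 := Nat.cast_ne_zero.mpr hp
  rw [show -(2 - s) = (-(2 : ℕ) : ℂ) + s by push_cast; ring, Complex.cpow_add _ _ hpc,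
    Complex.cpow_neg, Complex.cpow_natCast, Complex.cpow_neg, div_eq_mul_inv, inv_inv]

theorem eulerProd_two_sub (N : ℕ) (a : ℕ → ℂ) (T : Finset ℕ) (hT : ∀ p ∈ T, p.Prime) (s : ℂ) :
    (∏ p ∈ T, ((p : ℂ) ^ (-s)) ^ 2) * eulerProd N a T (2 - s) =
      ∏ p ∈ T, (eulerPolyRev N a p).eval ((p : ℂ) ^ (-s)) := by
  unfold eulerProd
  rw [← Finset.prod_mul_distrib]
  refine Finset.prod_congr rfl fun p hp => ?_
  have hp0 : p ≠ 0 := (hT p hp).ne_zero
  have hpc : (p : ℂ) ≠ 0 := Nat.cast_ne_zero.mpr hp0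
  have hx : (p : ℂ) ^ (-s) ≠ 0 := (Complex.cpow_ne_zero_iff).mpr (Or.inl hpc)
  rw [eval_eulerPolyRev N a hp0 hx, cpow_neg_two_sub hp0]

/-- From the global identity to the local identity at a prime `q ∈ T`. -/
theorem localIdentity_of_global (hIL : IndepLocal)
    {N N' : ℕ} [NeZero N] [NeZero N'] (a b : ℕ → ℂ) {wf wg : ℂ} (hwf : wf ≠ 0) (hwg : wg ≠ 0)
    (T : Finset ℕ) (hT : ∀ p ∈ T, p.Prime)
    (hTN : N.primeFactors ⊆ T) (hTN' : N'.primeFactors ⊆ T)
    (hglob : ∀ s : ℂ, wf * (N : ℂ) ^ (s - 1) * eulerProd N a T (2 - s) * eulerProd N' b T s =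
      wg * (N' : ℂ) ^ (s - 1) * eulerProd N a T s * eulerProd N' b T (2 - s))
    (q : ℕ) (hq : q ∈ T) :
    ∃ c : ℂ, c ≠ 0 ∧
      X ^ (N'.factorization q) * eulerPolyRev N a q * eulerPoly N' b q =
        C c * (X ^ (N.factorization q) * eulerPoly N a q * eulerPolyRev N' b q) := by
  classical
  have hN : N ≠ 0 := NeZero.ne N
  have hN' : N' ≠ 0 := NeZero.ne N'
  have hNc : (N : ℂ) ≠ 0 := Nat.cast_ne_zero.mpr hN
  have hN'c : (N' : ℂ) ≠ 0 := Nat.cast_ne_zero.mpr hN'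
  set c₀ : ℂ := wg * N / (wf * N') with hc₀
  have hc₀ne : c₀ ≠ 0 := div_ne_zero (mul_ne_zero hwg hNc) (mul_ne_zero hwf hN'c)
  let A : ℕ → ℂ[X] := fun p =>
    X ^ (N'.factorization p) * eulerPolyRev N a p * eulerPoly N' b p
  let B : ℕ → ℂ[X] := fun p =>
    X ^ (N.factorization p) * eulerPoly N a p * eulerPolyRev N' b p
  let B' : ℕ → ℂ[X] := fun p => (if p = q then C c₀ else 1) * B p
  have hA : ∀ p ∈ T, A p ≠ 0 := fun p _ =>
    mul_ne_zero (mul_ne_zero (pow_ne_zero _ X_ne_zero) (eulerPolyRev_ne_zero N a p))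
      (eulerPoly_ne_zero N' b p)
  have hB : ∀ p, B p ≠ 0 := fun p =>
    mul_ne_zero (mul_ne_zero (pow_ne_zero _ X_ne_zero) (eulerPoly_ne_zero N a p))
      (eulerPolyRev_ne_zero N' b p)
  have hB' : ∀ p ∈ T, B' p ≠ 0 := by
    intro p _
    refine mul_ne_zero ?_ (hB p)
    split_ifs
    · exact C_ne_zero.mpr hc₀ne
    · exact one_ne_zero
  have hid : ∀ s : ℂ, ∏ p ∈ T, (A p).eval ((p : ℂ) ^ (-s)) =
      ∏ p ∈ T, (B' p).eval ((p : ℂ) ^ (-s)) := by
    intro s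
    have hL : ∏ p ∈ T, (A p).eval ((p : ℂ) ^ (-s)) =
        (N' : ℂ) ^ (-s) * ((∏ p ∈ T, ((p : ℂ) ^ (-s)) ^ 2) * eulerProd N a T (2 - s)) *
          eulerProd N' b T s := by
      rw [eulerProd_two_sub N a T hT, natCast_cpow_eq_prod hN' T hTN', eulerProd,
        ← Finset.prod_mul_distrib, ← Finset.prod_mul_distrib]
      refine Finset.prod_congr rfl fun p _ => ?_
      simp only [A, eval_mul, eval_pow, eval_X]
    have hR : ∏ p ∈ T, (B' p).eval ((p : ℂ) ^ (-s)) =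
        c₀ * ((N : ℂ) ^ (-s) * eulerProd N a T s *
          ((∏ p ∈ T, ((p : ℂ) ^ (-s)) ^ 2) * eulerProd N' b T (2 - s))) := by
      rw [eulerProd_two_sub N' b T hT, natCast_cpow_eq_prod hN T hTN, eulerProd,
        ← Finset.prod_mul_distrib, ← Finset.prod_mul_distrib]
      have h1 : ∏ p ∈ T, (B' p).eval ((p : ℂ) ^ (-s)) =
          (∏ p ∈ T, (if p = q then c₀ else 1)) * ∏ p ∈ T, (B p).eval ((p : ℂ) ^ (-s)) := by
        rw [← Finset.prod_mul_distrib]
        refine Finset.prod_congr rfl fun p _ => ?_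
        simp only [B', eval_mul]
        split_ifs <;> simp
      rw [h1, Finset.prod_ite_eq' T q (fun _ => c₀), if_pos hq]
      congr 1
      refine Finset.prod_congr rfl fun p _ => ?_
      simp only [B, eval_mul, eval_pow, eval_X]
    rw [hL, hR]
    have hg := hglob s
    rw [Complex.cpow_sub _ _ hNc, Complex.cpow_sub _ _ hN'c, Complex.cpow_one,
      Complex.cpow_one] at hg
    rw [Complex.cpow_neg, Complex.cpow_neg]
    have hu : (N : ℂ) ^ s ≠ 0 := (Complex.cpow_ne_zero_iff).mpr (Or.inl hNc)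
    have hv : (N' : ℂ) ^ s ≠ 0 := (Complex.cpow_ne_zero_iff).mpr (Or.inl hN'c)
    rw [hc₀]
    field_simp
    field_simp at hg
    linear_combination (∏ p ∈ T, ((p : ℂ) ^ (-s)) ^ 2) * hg
  obtain ⟨c, hc, hAB⟩ := hIL T hT A B' hA hB' hid q hq
  refine ⟨c * c₀, mul_ne_zero hc hc₀ne, ?_⟩
  have : A q = C c * B' q := hAB
  simp only [A, B', B, ↓reduceIte] at this
  rw [this, C_mul]
  ring

end Fermat.Agent.Lib.Newform.H958.X
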