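import Fermat.Agent.Lib.Newform.H958.X.Local

/-!
# NEWFORM block X — `LocalIdentity` from the leaves
-/

set_option autoImplicit false

open CongruenceSubgroup Complex Polynomial
open UpperHalfPlane hiding I
open scoped MatrixGroups ModularForm

namespace Fermat.Agent.Lib.Newform.H958.X

open ModularFormClass ModularForm

theorem localIdentity_of (hIL : IndepLocal) (hD : DirichletSeries) (hDep : Deplete)
    (hO : FrickeOp) (hI : FrickeInvol) (hH : FrickeHecke) (hM : MultOne)
    (hET : Fermat.Agent.Lib.Newform.H958.EigenT) : LocalIdentity := by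
  intro N N' _ _ f g hf hg S hagree q hq
  classical
  let T : Finset ℕ := (S ∪ N.primeFactors ∪ N'.primeFactors ∪ {q}).filter Nat.Prime
  have hT : ∀ p ∈ T, p.Prime := fun p hp => (Finset.mem_filter.mp hp).2
  have hqT : q ∈ T := Finset.mem_filter.mpr ⟨by simp, hq⟩
  have hTN : N.primeFactors ⊆ T := fun p hp =>
    Finset.mem_filter.mpr ⟨by simp [hp], (Nat.mem_primeFactors.mp hp).1⟩
  have hTN' : N'.primeFactors ⊆ T := fun p hp =>
    Finset.mem_filter.mpr ⟨by simp [hp], (Nat.mem_primeFactors.mp hp).1⟩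
  have hag : ∀ ℓ : ℕ, ℓ.Prime → ℓ ∉ T → qCoeff f ℓ = qCoeff g ℓ := fun ℓ hℓ hℓT =>
    hagree ℓ hℓ fun hS => hℓT (Finset.mem_filter.mpr ⟨by simp [hS], hℓ⟩)
  obtain ⟨wf, hwf, hFEf⟩ := functionalEq_newform_of hO hI hH hM hET hf
  obtain ⟨wg, hwg, hFEg⟩ := functionalEq_newform_of hO hI hH hM hET hg
  have hwf0 : wf ≠ 0 := by
    rintro rfl
    simp at hwf
  have hwg0 : wg ≠ 0 := by
    rintro rfl
    simp at hwg
  have hglob := globalIdentity_of hD hDep hf.1 hg.1 hFEf hFEg T hT hTN hTN' hag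
  exact localIdentity_of_global hIL _ _ hwf0 hwg0 T hT hTN hTN' hglob q hqT

end Fermat.Agent.Lib.Newform.H958.X
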